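/-
Program A (S42), leaf (ORD), analytic input at the cusp (helper47).

A holomorphic function `G` on the upper half plane with period `w` whose `p`-th power behaves
like `μ · q_N ^ n` at `i∞` (`μ ≠ 0`) satisfies `p N ∣ n w`.
-/
import Mathlib
import Fermat.Agent.S24.H62.ExpUnique

set_option autoImplicit false

open UpperHalfPlane Filter Topology Function
open scoped Manifold Real

noncomputable section

namespace Fermat.Agent.S42.H47

open Fermat.Agent.S24

/-- The exponential parameter is periodic. -/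
theorem qParam_add_period (h : ℝ) (hh : h ≠ 0) (z : ℂ) :
    Function.Periodic.qParam h (z + h) = Function.Periodic.qParam h z := by
  have hc : (h : ℂ) ≠ 0 := by exact_mod_cast hh
  unfold Function.Periodic.qParam
  have e : 2 * (π : ℂ) * Complex.I * (z + h) / h = 2 * π * Complex.I * z / h + 2 * π * Complex.I := by
    field_simp
  rw [e, Complex.exp_add, Complex.exp_two_pi_mul_I, mul_one]

/-- Periodicity of a function on `ℍ`, transported to `ℂ` through `ofComplex`. -/
theorem periodic_comp_ofComplex (w : ℕ) (G : ℍ → ℂ)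
    (hper : ∀ τ : ℍ, G ((w : ℝ) +ᵥ τ) = G τ) :
    Function.Periodic (fun z : ℂ => G (ofComplex z)) ((w : ℝ) : ℂ) := by
  intro z
  show G (ofComplex (z + ((w : ℝ) : ℂ))) = G (ofComplex z)
  by_cases hz : 0 < z.im
  · have hz' : 0 < (z + ((w : ℝ) : ℂ)).im := by simpa using hz
    have e : ofComplex (z + ((w : ℝ) : ℂ)) = (w : ℝ) +ᵥ ofComplex z := by
      apply UpperHalfPlane.ext
      rw [UpperHalfPlane.coe_vadd, ofComplex_apply_of_im_pos hz', ofComplex_apply_of_im_pos hz]
      simp [add_comm]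
    rw [e, hper]
  · have hz0 : z.im ≤ 0 := not_lt.mp hz
    have hz' : (z + ((w : ℝ) : ℂ)).im ≤ 0 := by simpa using hz0
    rw [ofComplex_apply_eq_of_im_nonpos hz' hz0]

theorem rexp_zpow (x : ℝ) (n : ℤ) : Real.exp x ^ n = Real.exp (n * x) := by
  rw [← Real.rpow_intCast, ← Real.exp_mul, mul_comm]

theorem cusp_root_dvd (N : ℕ) [NeZero N] (p : ℕ) (hp : 0 < p) (w : ℕ) [NeZero w]
    (G : ℍ → ℂ) (hG : MDiff G) (hper : ∀ τ : ℍ, G ((w : ℝ) +ᵥ τ) = G τ)
    (n : ℤ) (μ : ℂ) (hμ : μ ≠ 0)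
    (hlim : Tendsto (fun τ : ℍ => G τ ^ p / qN N τ ^ n) atImInfty (𝓝 μ)) :
    ((p * N : ℕ) : ℤ) ∣ n * w := by
  have hN : 0 < N := Nat.pos_of_ne_zero (NeZero.ne N)
  have hw : 0 < w := Nat.pos_of_ne_zero (NeZero.ne w)
  have hNr : (0 : ℝ) < N := by exact_mod_cast hN
  have hGper := periodic_comp_ofComplex w G hper
  set h : ℝ := (w : ℝ) with hh_def
  have hh : 0 < h := by rw [hh_def]; exact_mod_cast hw
  set M : ℕ := w * n.natAbs with hM
  set f : ℂ → ℂ := fun z => G (ofComplex z) * Function.Periodic.qParam h z ^ M with hf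
  -- periodicity
  have hf_per : Function.Periodic f h := by
    intro z
    show G (ofComplex (z + (h : ℂ))) * Function.Periodic.qParam h (z + h) ^ M = _
    rw [qParam_add_period h hh.ne' z]
    exact congrArg (· * Function.Periodic.qParam h z ^ M) (hGper z)
  -- differentiability
  have hf_diff : ∀ z : ℂ, 0 < z.im → DifferentiableAt ℂ f z := by
    intro z hz
    have h1 : DifferentiableAt ℂ (G ∘ ofComplex) z :=
      ((UpperHalfPlane.mdifferentiable_iff.mp hG) z hz).differentiableAt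
        (isOpen_upperHalfPlaneSet.mem_nhds hz)
    exact h1.mul ((Function.Periodic.differentiable_qParam (h := h)).differentiableAt.pow M)
  have him : Tendsto Complex.im (comap Complex.im atTop) atTop := tendsto_comap
  have h_hol : ∀ᶠ z in comap Complex.im atTop, DifferentiableAt ℂ f z :=
    (him.eventually (eventually_gt_atTop 0)).mono fun z hz => hf_diff z hz
  -- eventual identities on ℍ
  have hfτ : ∀ τ : ℍ, f τ = G τ * qN w τ ^ M := by
    intro τ
    show G (ofComplex (τ : ℂ)) * _ = _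
    rw [ofComplex_apply]
    rfl
  -- the bound
  have hbd_ev : ∀ᶠ τ in atImInfty, ‖G τ ^ p / qN N τ ^ n‖ ≤ ‖μ‖ + 1 := by
    have := hlim.norm
    exact (this.eventually (gt_mem_nhds (lt_add_one ‖μ‖))).mono fun τ hτ => hτ.le
  have hkey : ∀ τ : ℍ, ‖G τ ^ p / qN N τ ^ n‖ ≤ ‖μ‖ + 1 → ‖f τ‖ ≤ ‖μ‖ + 1 := by
    intro τ hτ
    have hC : (1 : ℝ) ≤ ‖μ‖ + 1 := by linarith [norm_nonneg μ]
    have hpw : ‖f τ‖ ^ p ≤ ‖μ‖ + 1 := by
      rw [hfτ, norm_mul, mul_pow, norm_pow, ← norm_pow (G τ)]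
      have hq : qN N τ ^ n ≠ 0 := zpow_ne_zero _ (H62.qN_ne_zero N τ)
      have e : ‖G τ ^ p‖ = ‖G τ ^ p / qN N τ ^ n‖ * ‖qN N τ ^ n‖ := by
        rw [← norm_mul, div_mul_cancel₀ _ hq]
      rw [e, mul_assoc]
      have hle : ‖qN N τ ^ n‖ * (‖qN w τ‖ ^ M) ^ p ≤ 1 := by
        rw [norm_zpow, H62.norm_qN, H62.norm_qN, ← Real.exp_nat_mul, ← Real.exp_nat_mul,
          rexp_zpow, ← Real.exp_add]
        apply Real.exp_le_one_iff.mpr
        have hτ0 : 0 < τ.im := τ.im_pos
        have hwr : (0 : ℝ) < w := by exact_mod_cast hw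
        have h1 : (M : ℝ) = w * |(n : ℝ)| := by
          rw [hM]; push_cast
          rw [Nat.cast_natAbs]; push_cast; rfl
        have habs : -(n : ℝ) ≤ |(n : ℝ)| := neg_le_abs _
        have habs0 : 0 ≤ |(n : ℝ)| := abs_nonneg _
        have hp1 : (1 : ℝ) ≤ p := by exact_mod_cast hp
        have hN1 : (1 : ℝ) ≤ N := by exact_mod_cast hN
        have e2 : (n : ℝ) * (-2 * π * τ.im / N) + (p : ℝ) * ((M : ℝ) * (-2 * π * τ.im / w))
            = -(2 * π * τ.im) * ((n : ℝ) / N + p * |(n : ℝ)|) := by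
          rw [h1]; field_simp; ring
        rw [e2]
        have h3 : 0 ≤ (n : ℝ) / N + p * |(n : ℝ)| := by
          have h4 : -|(n : ℝ)| ≤ (n : ℝ) / N := by
            rw [le_div_iff₀ hNr]
            nlinarith
          nlinarith
        have h5 : 0 ≤ 2 * π * τ.im := by positivity
        nlinarith
      calc ‖G τ ^ p / qN N τ ^ n‖ * (‖qN N τ ^ n‖ * (‖qN w τ‖ ^ M) ^ p)
          ≤ (‖μ‖ + 1) * 1 := mul_le_mul hτ hle (by positivity) (by positivity)
        _ = ‖μ‖ + 1 := mul_one _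
    by_cases h1 : ‖f τ‖ ≤ 1
    · exact h1.trans hC
    · push Not at h1
      exact (le_self_pow₀ h1.le hp.ne').trans hpw
  have h_bd : BoundedAtFilter (comap Complex.im atTop) f := by
    have hev : ∀ᶠ z in comap Complex.im atTop, ‖f z‖ ≤ ‖μ‖ + 1 := by
      have h1 := tendsto_comap_im_ofComplex.eventually hbd_ev
      filter_upwards [h1, him.eventually (eventually_gt_atTop 0)] with z hz hz0
      have := hkey (ofComplex z) hz
      rwa [ofComplex_apply_of_im_pos hz0] at this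
    refine Asymptotics.IsBigO.of_bound (‖μ‖ + 1) (hev.mono fun z hz => ?_)
    simpa using hz
  -- the cusp function
  set c : ℂ → ℂ := Function.Periodic.cuspFunction h f with hc
  have hc0 : DifferentiableAt ℂ c 0 :=
    Function.Periodic.differentiableAt_cuspFunction_zero hh hf_per h_hol h_bd
  have hc_ne : ∀ᶠ q in 𝓝[≠] 0, DifferentiableAt ℂ c q :=
    Function.Periodic.eventually_differentiableAt_cuspFunction_nhds_ne_zero hh hf_per h_hol
  have hc_an : AnalyticAt ℂ c 0 := by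
    rw [Complex.analyticAt_iff_eventually_differentiableAt]
    rw [eventually_nhdsWithin_iff] at hc_ne
    filter_upwards [hc_ne] with q hq
    by_cases hq0 : q = 0
    · rw [hq0]; exact hc0
    · exact hq hq0
  have hcτ : ∀ τ : ℍ, c (qN w τ) = G τ * qN w τ ^ M := by
    intro τ
    rw [← hfτ]
    exact Function.Periodic.eq_cuspFunction hh.ne' hf_per (τ : ℂ)
  -- `G` does not vanish near `i∞`
  have hGne : ∀ᶠ τ in atImInfty, G τ ≠ 0 := by
    have := hlim.eventually (isOpen_ne.mem_nhds hμ)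
    filter_upwards [this] with τ hτ hG0
    apply hτ
    rw [hG0, zero_pow hp.ne', zero_div]
  have htq : Tendsto (qN w) atImInfty (𝓝 0) := H62.tendsto_qN_nhds w
  -- `c` is not locally zero
  have hnz : ¬ ∀ᶠ q in 𝓝 (0 : ℂ), c q = 0 := by
    intro hz
    have h1 := htq.eventually hz
    obtain ⟨τ, hτ1, hτ2⟩ := (h1.and hGne).exists
    rw [hcτ] at hτ1
    exact mul_ne_zero hτ2 (pow_ne_zero _ (H62.qN_ne_zero w τ)) hτ1
  obtain ⟨m₁, g, hg_an, hg0, hgeq⟩ :=
    (hc_an.exists_eventuallyEq_pow_smul_nonzero_iff).mpr hnz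
  -- the ratio of the two exponentials
  have hgq : Tendsto (fun τ : ℍ => g (qN w τ) ^ p) atImInfty (𝓝 (g 0 ^ p)) :=
    ((hg_an.continuousAt.tendsto.comp htq).pow p)
  have hg0p : g 0 ^ p ≠ 0 := pow_ne_zero _ hg0
  set k : ℤ := (m₁ : ℤ) - M with hk
  have hR : Tendsto (fun τ : ℍ => qN w τ ^ (p * k) / qN N τ ^ n) atImInfty (𝓝 (μ / g 0 ^ p)) := by
    have h1 := hlim.div hgq hg0p
    refine h1.congr' ?_
    filter_upwards [htq.eventually hgeq, hGne] with τ hτ hGτ
    rw [hcτ] at hτ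
    simp only [sub_zero, smul_eq_mul] at hτ
    have hq0 : qN w τ ≠ 0 := H62.qN_ne_zero w τ
    have hgτ : g (qN w τ) ≠ 0 := by
      intro h0
      rw [h0, mul_zero] at hτ
      exact mul_ne_zero hGτ (pow_ne_zero _ hq0) hτ
    have hGeq : G τ = qN w τ ^ k * g (qN w τ) := by
      rw [hk, zpow_sub₀ hq0, zpow_natCast, zpow_natCast]
      field_simp
      linear_combination hτ
    show G τ ^ p / qN N τ ^ n / g (qN w τ) ^ p = _
    rw [hGeq, mul_pow, ← zpow_natCast (qN w τ ^ k) p, ← zpow_mul, mul_comm k (p : ℤ)]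
    field_simp
  -- norms
  set κ : ℝ := (p : ℝ) * k / w - n / N with hκ
  have hnorm : ∀ τ : ℍ, ‖qN w τ ^ (p * k) / qN N τ ^ n‖ = Real.exp (-(2 * π * κ) * τ.im) := by
    intro τ
    rw [norm_div, norm_zpow, norm_zpow, H62.norm_qN, H62.norm_qN, rexp_zpow,
      rexp_zpow, ← Real.exp_sub]
    congr 1
    rw [hκ]
    have hwr : (w : ℝ) ≠ 0 := by exact_mod_cast hw.ne'
    push_cast
    field_simp
    ring
  have hRn : Tendsto (fun τ : ℍ => Real.exp (-(2 * π * κ) * τ.im)) atImInfty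
      (𝓝 ‖μ / g 0 ^ p‖) := by
    have := hR.norm
    exact this.congr hnorm
  have hpos : 0 < ‖μ / g 0 ^ p‖ := norm_pos_iff.mpr (div_ne_zero hμ hg0p)
  have him' : Tendsto (fun τ : ℍ => τ.im) atImInfty atTop := tendsto_comap
  have hκ0 : κ = 0 := by
    rcases lt_trichotomy κ 0 with hneg | h0 | hposκ
    · -- blows up
      exfalso
      have hc1 : 0 < -(2 * π * κ) := by
        have : 0 < 2 * π := by positivity
        nlinarith
      have h1 : Tendsto (fun τ : ℍ => Real.exp (-(2 * π * κ) * τ.im)) atImInfty atTop :=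
        Real.tendsto_exp_atTop.comp (him'.const_mul_atTop hc1)
      exact not_tendsto_nhds_of_tendsto_atTop h1 _ hRn
    · exact h0
    · exfalso
      have hc1 : -(2 * π * κ) < 0 := by
        have : 0 < 2 * π := by positivity
        nlinarith
      have h1 : Tendsto (fun τ : ℍ => Real.exp (-(2 * π * κ) * τ.im)) atImInfty (𝓝 0) :=
        Real.tendsto_exp_atBot.comp (him'.const_mul_atTop_of_neg hc1)
      exact hpos.ne' (tendsto_nhds_unique hRn h1)
  -- conclusion
  refine ⟨k, ?_⟩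
  have hwr : (w : ℝ) ≠ 0 := by exact_mod_cast hw.ne'
  have hNr' : (N : ℝ) ≠ 0 := hNr.ne'
  have e : (n : ℝ) * w = (p : ℝ) * N * k := by
    rw [hκ] at hκ0
    field_simp at hκ0
    linarith
  have e' : ((n * w : ℤ) : ℝ) = (((p * N : ℕ) : ℤ) * k : ℤ) := by
    push_cast
    linarith
  exact_mod_cast e'

end Fermat.Agent.S42.H47
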