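/-
Program A (S42), leaf (ORD), finite centres (helper47).

If `Θ(P) · Θ(Q)^(p-1)` is the `p`-th power of a holomorphic function on the upper half plane,
then `p ∣ v.ord (P/Q)` for every place `v` of `FF N` with a finite centre on the `j`-line
(`p ≥ 5`; no automorphy of the root is needed here).
-/
import Fermat.Agent.S24.ModGlobal
import Fermat.Agent.S24.Fiber
import Fermat.Agent.S24.Residue
import Fermat.Agent.S24.H92.Taylor
import Fermat.Agent.S24.Newton
import Fermat.Agent.S24.H47.CenterOfPoly

set_option autoImplicit false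

open UpperHalfPlane ModularCurve CongruenceSubgroup Filter AlgebraicCurve
open scoped MatrixGroups Manifold

noncomputable section

namespace Fermat.Agent.S42.H47

open Fermat.Agent.S24

variable (N : ℕ) [NeZero N]

set_option linter.unusedSectionVars false

/-- The range of `evF` generates `FF N` as a field of fractions. -/
theorem frac_evF (f : FF N) :
    ∃ a ∈ (evF N).range, ∃ b ∈ (evF N).range, b ≠ 0 ∧ f = a / b := by
  obtain ⟨P, Q, hQ, hf⟩ := evF_frac N f
  exact ⟨evF N P, ⟨P, rfl⟩, evF N Q, ⟨Q, rfl⟩, hQ, hf⟩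

/-- The translate of a function on the upper half plane along the coset `x`. -/
def translFun (x : XX N) (U : ℍ → ℂ) : ℍ → ℂ :=
  fun τ => U ((Quotient.out x : SL(2, ℤ))⁻¹ • τ)

theorem mdiff_translFun (x : XX N) {U : ℍ → ℂ} (hU : MDiff U) : MDiff (translFun N x U) :=
  H92.mdiff_comp_smul _ hU

theorem translFun_pow (x : XX N) {U : ℍ → ℂ} {p : ℕ} (P Q : MvPolynomial (N.divisors) Kbar)
    (hpow : ∀ τ, U τ ^ p = Theta N P τ * Theta N Q τ ^ (p - 1)) :
    translFun N x U ^ p = transl N x P * transl N x Q ^ (p - 1) := by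
  funext τ
  exact hpow _

theorem taylorAt_pow (τ₀ : ℍ) {f : ℍ → ℂ} (hf : MDiff f) (n : ℕ) :
    taylorAt τ₀ (f ^ n) = taylorAt τ₀ f ^ n := by
  induction n with
  | zero =>
    have e : (f ^ 0 : ℍ → ℂ) = fun _ => (1 : ℂ) := by
      funext τ; simp
    rw [e, taylorAt_const, pow_zero, map_one]
  | succ n ih =>
    have hn : MDiff (f ^ n) := by
      have : (f ^ n) = ∏ _i ∈ Finset.range n, f := by
        rw [Finset.prod_const, Finset.card_range]
      rw [this]
      exact (H83.taylorAt_prod τ₀ (Finset.range n) (fun _ => f) (fun _ _ => hf)).2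
    rw [pow_succ, taylorAt_mul τ₀ hn hf, ih, pow_succ]

/-- The order of a quotient `a / b` when `a · b^(p-1)` is a `p`-th power. -/
theorem order_div_of_pow {a b u : LaurentSeries ℂ} {p : ℕ} (hp : 0 < p) (ha : a ≠ 0) (hb : b ≠ 0)
    (h : u ^ p = a * b ^ (p - 1)) : (a / b).order = p * (u.order - b.order) := by
  have h1 : (u ^ p).order = (p : ℤ) * u.order := lorder_pow u p
  rw [h, lorder_mul ha (pow_ne_zero _ hb), lorder_pow] at h1
  rw [div_eq_mul_inv, lorder_mul ha (inv_ne_zero hb), lorder_inv]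
  have h2 : ((p - 1 : ℕ) : ℤ) = (p : ℤ) - 1 := by
    have : 1 ≤ p := hp
    push_cast [this]
    ring
  rw [h2] at h1
  linarith

/-- The ramification parameter of `j - c` is `1`, `2` or `3`. -/
theorem s_fin_cases [Fintype (XX N)] (c : Kbar)
    (L : LocalData Kbar (FF N) (XX N) (evF N).range (jgen N - algebraMap Kbar (FF N) c))
    (hφ : ∀ (x : XX N) (P : MvPolynomial (N.divisors) Kbar),
        L.φ x (evF N P) = HahnSeries.ofPowerSeries ℤ ℂ (taylorAt (centerPt c) (transl N x P))) :
    L.s = 1 ∨ L.s = 2 ∨ L.s = 3 := by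
  set x₀ : XX N := QuotientGroup.mk 1 with hx₀
  have hπ : jgen N - algebraMap Kbar (FF N) c
      = evF N (MvPolynomial.X (oneDiv N) - MvPolynomial.C c) := by
    rw [map_sub, evF_X_one, Fermat.Agent.S24.H47.evF_C]
  have htr : transl N x₀ (MvPolynomial.X (oneDiv N) - MvPolynomial.C c)
      = fun τ => Jfun τ - iota c := by
    rw [H49.transl_sub, transl_X_one, transl_C]
    rfl
  have hmd : MDiff (fun τ : ℍ => Jfun τ - iota c) := by
    rw [← htr]; exact mdiff_transl N x₀ _
  have hs := L.order_π x₀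
  rw [congrArg (L.φ x₀) hπ, hφ, htr] at hs
  have hcomp : (fun τ : ℍ => Jfun τ - iota c) ∘ ofComplex
      = fun z : ℂ => Jfun (ofComplex z) - iota c := rfl
  have key : ∀ k : ℕ, analyticOrderAt (fun z : ℂ => Jfun (ofComplex z) - iota c)
      (centerPt c : ℂ) = k → L.s = k := by
    intro k hk
    have hord : (taylorAt (centerPt c) (fun τ : ℍ => Jfun τ - iota c)).order = k := by
      rw [order_taylorAt _ hmd, hcomp, hk]
    have hne : taylorAt (centerPt c) (fun τ : ℍ => Jfun τ - iota c) ≠ 0 := by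
      intro h0
      rw [h0, PowerSeries.order_zero] at hord
      exact ENat.top_ne_natCast k hord
    rw [order_ofPowerSeries hne, hord] at hs
    have : ((k : ℕ∞).toNat : ℤ) = (L.s : ℤ) := hs
    rw [ENat.toNat_natCast] at this
    exact_mod_cast this.symm
  by_cases h0 : c = 0
  · right; right
    have hpt : centerPt c = ellRho := if_pos h0
    apply key 3
    rw [hpt, h0, map_zero]
    simpa using analyticOrderAt_Jfun_rho
  · by_cases h1 : c = 1728
    · right; left
      have hpt : centerPt c = UpperHalfPlane.I := by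
        unfold centerPt
        rw [if_neg h0, if_pos h1]
      apply key 2
      rw [hpt, h1, map_ofNat]
      exact_mod_cast analyticOrderAt_Jfun_I
    · left
      have hτ : Jfun (centerPt c) = iota c := Jfun_centerPt c
      have hJ0 : Jfun (centerPt c) ≠ 0 := by
        rw [hτ]
        exact (map_ne_zero iota).mpr h0
      have hJ1 : Jfun (centerPt c) ≠ 1728 := by
        rw [hτ]
        intro h
        apply h1
        apply iota.injective
        rw [h, map_ofNat]
      apply key 1
      rw [← hτ]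
      exact_mod_cast analyticOrderAt_Jfun_generic (centerPt c) hJ0 hJ1

/-- **(ORD), finite centres.** -/
theorem ord_dvd_fin [Fintype (XX N)] (p : ℕ) (hp : p.Prime) (hp5 : 5 ≤ p)
    (P Q : MvPolynomial (N.divisors) Kbar) (hP : evF N P ≠ 0) (hQ : evF N Q ≠ 0)
    (U : ℍ → ℂ) (hU : MDiff U)
    (hpow : ∀ τ, U τ ^ p = Theta N P τ * Theta N Q τ ^ (p - 1))
    (c : Kbar) (v : Place Kbar (FF N))
    (hv : 0 < v.ord (jgen N - algebraMap Kbar (FF N) c)) :
    (p : ℤ) ∣ v.ord (evF N P / evF N Q) := by
  classical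
  obtain ⟨L, -, hφ⟩ := exists_localData_fin N c
  have : Nonempty (XX N) := ⟨QuotientGroup.mk 1⟩
  obtain ⟨x, hx⟩ := L.exists_rel_of_place (frac_evF N) v hv
  have hrel := hx (evF N P / evF N Q)
  have ha : HahnSeries.ofPowerSeries ℤ ℂ (taylorAt (centerPt c) (transl N x P)) ≠ 0 := by
    rw [← hφ]; exact L.φ_ne_zero x hP
  have hb : HahnSeries.ofPowerSeries ℤ ℂ (taylorAt (centerPt c) (transl N x Q)) ≠ 0 := by
    rw [← hφ]; exact L.φ_ne_zero x hQ
  have hQpow : MDiff (transl N x Q ^ (p - 1)) := by
    rw [← H49.transl_pow]; exact mdiff_transl N x _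
  have hupow : HahnSeries.ofPowerSeries ℤ ℂ (taylorAt (centerPt c) (translFun N x U)) ^ p
      = HahnSeries.ofPowerSeries ℤ ℂ (taylorAt (centerPt c) (transl N x P))
        * HahnSeries.ofPowerSeries ℤ ℂ (taylorAt (centerPt c) (transl N x Q)) ^ (p - 1) := by
    rw [← map_pow, ← map_pow, ← map_mul, ← taylorAt_pow _ (mdiff_translFun N x hU),
      ← taylorAt_pow _ (mdiff_transl N x Q), ← taylorAt_mul _ (mdiff_transl N x P) hQpow,
      translFun_pow N x P Q hpow]
  have hord : (L.φ x (evF N P / evF N Q)).order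
      = p * ((HahnSeries.ofPowerSeries ℤ ℂ (taylorAt (centerPt c) (translFun N x U))).order
          - (HahnSeries.ofPowerSeries ℤ ℂ (taylorAt (centerPt c) (transl N x Q))).order) := by
    rw [map_div₀, hφ, hφ]
    exact order_div_of_pow hp.pos ha hb hupow
  rw [hord] at hrel
  have hdvd : (p : ℤ) ∣ (L.s : ℤ) * v.ord (evF N P / evF N Q) := by
    rw [← hrel, mul_assoc]
    exact dvd_mul_right _ _
  rcases Int.Prime.dvd_mul' hp hdvd with h | h
  · exfalso
    have h' : p ∣ L.s := by exact_mod_cast h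
    have hle := Nat.le_of_dvd L.s_pos h'
    rcases s_fin_cases N c L hφ with hs | hs | hs <;> omega
  · exact h

end Fermat.Agent.S42.H47
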