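/-
Program A (S42), leaf (ORD) (helper47).

If `Θ(P) · Θ(Q)^(p-1) = U^p` for a holomorphic `U` on the upper half plane which is invariant
under the parabolic elements of `Γ₀(N)`, then `p ∣ v.ord (P/Q)` for EVERY place `v` of the
function field `FF N` over `ℚ̄` (`p ≥ 5` prime).
-/
import Fermat.Agent.S42.H47.OrdFin
import Fermat.Agent.S42.H47.CuspRoot

set_option autoImplicit false

open UpperHalfPlane ModularCurve CongruenceSubgroup Filter AlgebraicCurve Topology
open scoped MatrixGroups Manifold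

noncomputable section

namespace Fermat.Agent.S42.H47

open Fermat.Agent.S24

variable (N : ℕ) [NeZero N]

set_option linter.unusedSectionVars false

theorem toPerm_pow_apply {G X : Type*} [Group G] [MulAction G X] (g : G) (k : ℕ) (y : X) :
    ((MulAction.toPerm g : Equiv.Perm X) ^ k) y = g ^ k • y := by
  induction k generalizing y with
  | zero => simp
  | succ k ih =>
    rw [pow_succ, Equiv.Perm.mul_apply, ih, MulAction.toPerm_apply, pow_succ, mul_smul]

/-- The translate `U ∘ g_x⁻¹` is periodic of period the width of the cusp. -/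
theorem translFun_periodic (x : XX N) (w : ℕ) (hw : ModularGroup.T ^ w • x = x) (U : ℍ → ℂ)
    (hpar : ∀ γ ∈ Gamma0 N, ((γ : SL(2, ℤ)) : Matrix (Fin 2) (Fin 2) ℤ).trace ^ 2 = 4 →
      ∀ τ, U (γ • τ) = U τ) (τ : ℍ) :
    translFun N x U ((w : ℝ) +ᵥ τ) = translFun N x U τ := by
  set g : SL(2, ℤ) := Quotient.out x with hg
  have hx : (QuotientGroup.mk g : XX N) = x := Quotient.out_eq x
  have hmem : g⁻¹ * (ModularGroup.T ^ w * g) ∈ Gamma0 N := by
    rw [← QuotientGroup.eq]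
    have : (QuotientGroup.mk (ModularGroup.T ^ w * g) : XX N)
        = ModularGroup.T ^ w • (QuotientGroup.mk g : XX N) := rfl
    rw [this, hx, hw]
  have htr : ((g⁻¹ * (ModularGroup.T ^ w * g) : SL(2, ℤ)) : Matrix (Fin 2) (Fin 2) ℤ).trace ^ 2
      = 4 := by
    have h1 : ((g⁻¹ * (ModularGroup.T ^ w * g) : SL(2, ℤ)) : Matrix (Fin 2) (Fin 2) ℤ).trace
        = ((ModularGroup.T ^ w : SL(2, ℤ)) : Matrix (Fin 2) (Fin 2) ℤ).trace := by
      rw [Matrix.SpecialLinearGroup.coe_mul, Matrix.trace_mul_comm,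
        ← Matrix.SpecialLinearGroup.coe_mul, mul_assoc, mul_inv_cancel, mul_one]
    rw [h1]
    have h2 : (ModularGroup.T ^ w : SL(2, ℤ)) = ModularGroup.T ^ (w : ℤ) := (zpow_natCast _ _).symm
    rw [h2, ModularGroup.coe_T_zpow]
    simp [Matrix.trace_fin_two]
  have hT : (w : ℝ) +ᵥ τ = ModularGroup.T ^ (w : ℤ) • τ := by
    rw [UpperHalfPlane.modular_T_zpow_smul]
    simp
  show U (g⁻¹ • ((w : ℝ) +ᵥ τ)) = U (g⁻¹ • τ)
  rw [hT, zpow_natCast, ← hpar _ hmem htr (g⁻¹ • τ)]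
  congr 1
  rw [← mul_smul, ← mul_smul, mul_assoc, mul_assoc, mul_inv_cancel, mul_one]

/-- **(ORD), the centre at infinity.** -/
theorem ord_dvd_inf [Fintype (XX N)] (p : ℕ) (hp : p.Prime)
    (P Q : MvPolynomial (N.divisors) Kbar) (hP : evF N P ≠ 0) (hQ : evF N Q ≠ 0)
    (U : ℍ → ℂ) (hU : MDiff U)
    (hpow : ∀ τ, U τ ^ p = Theta N P τ * Theta N Q τ ^ (p - 1))
    (hpar : ∀ γ ∈ Gamma0 N, ((γ : SL(2, ℤ)) : Matrix (Fin 2) (Fin 2) ℤ).trace ^ 2 = 4 →
      ∀ τ, U (γ • τ) = U τ)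
    (v : Place Kbar (FF N)) (hv : 0 < v.ord (jgen N)⁻¹) :
    (p : ℤ) ∣ v.ord (evF N P / evF N Q) := by
  classical
  obtain ⟨L, hρ, hφ⟩ := exists_localData_inf N
  have : Nonempty (XX N) := ⟨QuotientGroup.mk 1⟩
  obtain ⟨x, hx⟩ := L.exists_rel_of_place (frac_evF N) v hv
  have hrel := hx (evF N P / evF N Q)
  have hwid := L.ord_π_eq_minimalPeriod (frac_evF N) v hv hx
  set w : ℕ := Function.minimalPeriod L.ρ x with hw
  have hw0 : 0 < w := by
    rw [hwid] at hv
    exact_mod_cast hv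
  have : NeZero w := ⟨hw0.ne'⟩
  have hN0 : (N : ℤ) ≠ 0 := by exact_mod_cast NeZero.ne N
  -- the ramification parameter is `N`
  have hs : (L.s : ℤ) = N := by
    have h1 := L.order_π x
    rw [map_inv₀, lorder_inv, congrArg (L.φ x) (evF_X_one N).symm, hφ, PhiInf_X_one,
      order_coeffMap, order_qExpand, H59inf.order_jqModC_Kbar] at h1
    rw [← h1]; ring
  -- the orbit
  have hfix : (L.ρ ^ w) x = x := by
    rw [hw, ← Equiv.Perm.iterate_eq_pow]
    exact Function.iterate_minimalPeriod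
  have hTx : ModularGroup.T ^ w • x = x := by
    rw [hρ, toPerm_pow_apply] at hfix
    exact hfix
  -- the three series
  set a : LaurentSeries ℂ := coeffMap iota (PhiInf N x P) with ha_def
  set b : LaurentSeries ℂ := coeffMap iota (PhiInf N x Q) with hb_def
  have ha : a ≠ 0 := by rw [ha_def, ← hφ]; exact L.φ_ne_zero x hP
  have hb : b ≠ 0 := by rw [hb_def, ← hφ]; exact L.φ_ne_zero x hQ
  set Λ : LaurentSeries ℂ := coeffMap iota (PhiInf N x (P * Q ^ (p - 1))) with hΛ_def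
  have hΛ : Λ = a * b ^ (p - 1) := by
    rw [hΛ_def, map_mul, map_mul, map_pow, map_pow]
  have hΛ0 : Λ ≠ 0 := by rw [hΛ]; exact mul_ne_zero ha (pow_ne_zero _ hb)
  have hexp : HasExp atImInfty (qN N) (transl N x (P * Q ^ (p - 1))) Λ := hasExp_PhiInf N x _
  have hlim := H62.hasExp_tendsto_div_zpow_order (tendsto_qN N) hexp
  have hG : MDiff (translFun N x U) := mdiff_translFun N x hU
  have hGpow : ∀ τ, translFun N x U τ ^ p = transl N x (P * Q ^ (p - 1)) τ := by
    intro τ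
    rw [H49.transl_mul, H49.transl_pow]
    exact congrFun (translFun_pow N x P Q hpow) τ
  have hlim' : Tendsto (fun τ : ℍ => translFun N x U τ ^ p / qN N τ ^ Λ.order) atImInfty
      (𝓝 Λ.leadingCoeff) := by
    refine hlim.congr fun τ => ?_
    rw [hGpow]
  have hdvd := cusp_root_dvd N p hp.pos w (translFun N x U) hG
    (translFun_periodic N x w hTx U hpar) Λ.order Λ.leadingCoeff
    (HahnSeries.leadingCoeff_ne_zero.mpr hΛ0) hlim'
  -- orders
  have hΛord : Λ.order = a.order + ((p : ℤ) - 1) * b.order := by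
    rw [hΛ, lorder_mul ha (pow_ne_zero _ hb), lorder_pow]
    have h2 : ((p - 1 : ℕ) : ℤ) = (p : ℤ) - 1 := by
      have : 1 ≤ p := hp.pos
      push_cast [this]
      ring
    rw [h2]
  have hford : (L.φ x (evF N P / evF N Q)).order = a.order - b.order := by
    rw [map_div₀, hφ, hφ, div_eq_mul_inv, lorder_mul ha (inv_ne_zero hb), lorder_inv]
    ring
  have hbdvd : (L.s : ℤ) ∣ (w : ℤ) * (L.φ x (evF N Q)).order := L.dvd_order x (evF N Q) w hfix
  rw [hφ, hs] at hbdvd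
  rw [hford, hwid, hs] at hrel
  obtain ⟨k₁, hk₁⟩ := hdvd
  obtain ⟨k₂, hk₂⟩ := hbdvd
  refine ⟨k₁ - k₂, ?_⟩
  have e : (N : ℤ) * v.ord (evF N P / evF N Q) = (N : ℤ) * (p * (k₁ - k₂)) := by
    have hk₂' : (w : ℤ) * b.order = N * k₂ := hk₂
    push_cast at hk₁
    rw [hΛord] at hk₁
    linear_combination -hrel + hk₁ - (p : ℤ) * hk₂'
  exact mul_left_cancel₀ hN0 e

/-- **(ORD).** If `Θ(P) · Θ(Q)^(p-1) = U^p` with `U` holomorphic on the upper half plane and
invariant under the parabolic elements of `Γ₀(N)`, then the divisor of `P/Q` is divisible by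
`p` (`p ≥ 5`). -/
theorem ord_dvd [Fintype (XX N)] (p : ℕ) (hp : p.Prime) (hp5 : 5 ≤ p)
    (P Q : MvPolynomial (N.divisors) Kbar) (hP : evF N P ≠ 0) (hQ : evF N Q ≠ 0)
    (U : ℍ → ℂ) (hU : MDiff U)
    (hpow : ∀ τ, U τ ^ p = Theta N P τ * Theta N Q τ ^ (p - 1))
    (hpar : ∀ γ ∈ Gamma0 N, ((γ : SL(2, ℤ)) : Matrix (Fin 2) (Fin 2) ℤ).trace ^ 2 = 4 →
      ∀ τ, U (γ • τ) = U τ)
    (v : Place Kbar (FF N)) : (p : ℤ) ∣ v.ord (evF N P / evF N Q) := by
  classical
  have hR := frac_evF N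
  obtain ⟨L0, -, -⟩ := exists_localData_fin N 0
  have hj0 : jgen N - algebraMap Kbar (FF N) 0 = jgen N := by simp
  have halg0 : Algebra.IsAlgebraic (IntermediateField.adjoin Kbar {jgen N - algebraMap Kbar (FF N) 0})
      (FF N) := L0.isAlgebraic hR
  have halg : Algebra.IsAlgebraic (IntermediateField.adjoin Kbar {jgen N}) (FF N) := hj0 ▸ halg0
  rcases exists_center (jgen N) v with h | ⟨c, hc⟩
  · apply ord_dvd_inf N p hp P Q hP hQ U hU hpow hpar v
    rw [v.ord_inv]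
    omega
  · exact ord_dvd_fin N p hp hp5 P Q hP hQ U hU hpow c v hc

end Fermat.Agent.S42.H47
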