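/-
Program A (S42 / S30), leaf (ORD) for a general exponent `m` (helper47).

Same statements as `Ord.lean` with the prime `p` replaced by a modulus `m`:
* at the cusps any `m > 0`;
* at the finite centres `gcd(m, 6) = 1`.
-/
import Fermat.Agent.S42.H47.Ord

set_option autoImplicit false

open UpperHalfPlane ModularCurve CongruenceSubgroup Filter AlgebraicCurve Topology
open scoped MatrixGroups Manifold

noncomputable section

namespace Fermat.Agent.S42.H47

open Fermat.Agent.S24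

variable (N : ℕ) [NeZero N]

set_option linter.unusedSectionVars false

/-- **(ORD), finite centres, exponent `m` prime to `6`.** -/
theorem ord_dvd_fin_m [Fintype (XX N)] (p : ℕ) (hp : 0 < p) (hp6 : Nat.Coprime p 6)
    (P Q : MvPolynomial (N.divisors) Kbar) (hP : evF N P ≠ 0) (hQ : evF N Q ≠ 0)
    (U : ℍ → ℂ) (hU : MDiff U)
    (hpow : ∀ τ, U τ ^ p = Theta N P τ * Theta N Q τ ^ (p - 1))
    (c : Kbar) (v : Place Kbar (FF N))
    (hv : 0 < v.ord (jgen N - algebraMap Kbar (FF N) c)) :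
    (p : ℤ) ∣ v.ord (evF N P / evF N Q) := by
  classical
  obtain ⟨L, -, hφ⟩ := exists_localData_fin N c
  have : Nonempty (XX N) := ⟨QuotientGroup.mk 1⟩
  obtain ⟨x, hx⟩ := L.exists_rel_of_place (frac_evF N) v hv
  have hrel := hx (evF N P / evF N Q)
  have ha : HahnSeries.ofPowerSeries ℤ ℂ (taylorAt (centerPt c) (transl N x P)) ≠ 0 := by
    rw [← hφ]; exact L.φ_ne_zero x hP
  have hb : HahnSeries.ofPowerSeries ℤ ℂ (taylorAt (centerPt c) (transl N x Q)) ≠ 0 := by
    rw [← hφ]; exact L.φ_ne_zero x hQ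
  have hQpow : MDiff (transl N x Q ^ (p - 1)) := by
    rw [← H49.transl_pow]; exact mdiff_transl N x _
  have hupow : HahnSeries.ofPowerSeries ℤ ℂ (taylorAt (centerPt c) (translFun N x U)) ^ p
      = HahnSeries.ofPowerSeries ℤ ℂ (taylorAt (centerPt c) (transl N x P))
        * HahnSeries.ofPowerSeries ℤ ℂ (taylorAt (centerPt c) (transl N x Q)) ^ (p - 1) := by
    rw [← map_pow, ← map_pow, ← map_mul, ← taylorAt_pow _ (mdiff_translFun N x hU),
      ← taylorAt_pow _ (mdiff_transl N x Q), ← taylorAt_mul _ (mdiff_transl N x P) hQpow,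
      translFun_pow N x P Q hpow]
  have hord : (L.φ x (evF N P / evF N Q)).order
      = p * ((HahnSeries.ofPowerSeries ℤ ℂ (taylorAt (centerPt c) (translFun N x U))).order
          - (HahnSeries.ofPowerSeries ℤ ℂ (taylorAt (centerPt c) (transl N x Q))).order) := by
    rw [map_div₀, hφ, hφ]
    exact order_div_of_pow hp ha hb hupow
  rw [hord] at hrel
  have hdvd : (p : ℤ) ∣ (L.s : ℤ) * v.ord (evF N P / evF N Q) := by
    rw [← hrel, mul_assoc]
    exact dvd_mul_right _ _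
  have hs6 : L.s ∣ 6 := by
    rcases s_fin_cases N c L hφ with hs | hs | hs <;> rw [hs] <;> decide
  have hcop : IsCoprime (p : ℤ) (L.s : ℤ) :=
    Nat.isCoprime_iff_coprime.mpr (Nat.Coprime.coprime_dvd_right hs6 hp6)
  exact hcop.dvd_of_dvd_mul_left hdvd

/-- **(ORD), the centre at infinity, any exponent `m > 0`.** -/
theorem ord_dvd_inf_m [Fintype (XX N)] (p : ℕ) (hp : 0 < p)
    (P Q : MvPolynomial (N.divisors) Kbar) (hP : evF N P ≠ 0) (hQ : evF N Q ≠ 0)
    (U : ℍ → ℂ) (hU : MDiff U)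
    (hpow : ∀ τ, U τ ^ p = Theta N P τ * Theta N Q τ ^ (p - 1))
    (hpar : ∀ γ ∈ Gamma0 N, ((γ : SL(2, ℤ)) : Matrix (Fin 2) (Fin 2) ℤ).trace ^ 2 = 4 →
      ∀ τ, U (γ • τ) = U τ)
    (v : Place Kbar (FF N)) (hv : 0 < v.ord (jgen N)⁻¹) :
    (p : ℤ) ∣ v.ord (evF N P / evF N Q) := by
  classical
  obtain ⟨L, hρ, hφ⟩ := exists_localData_inf N
  have : Nonempty (XX N) := ⟨QuotientGroup.mk 1⟩
  obtain ⟨x, hx⟩ := L.exists_rel_of_place (frac_evF N) v hv
  have hrel := hx (evF N P / evF N Q)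
  have hwid := L.ord_π_eq_minimalPeriod (frac_evF N) v hv hx
  set w : ℕ := Function.minimalPeriod L.ρ x with hw
  have hw0 : 0 < w := by
    rw [hwid] at hv
    exact_mod_cast hv
  have : NeZero w := ⟨hw0.ne'⟩
  have hN0 : (N : ℤ) ≠ 0 := by exact_mod_cast NeZero.ne N
  -- the ramification parameter is `N`
  have hs : (L.s : ℤ) = N := by
    have h1 := L.order_π x
    rw [map_inv₀, lorder_inv, congrArg (L.φ x) (evF_X_one N).symm, hφ, PhiInf_X_one,
      order_coeffMap, order_qExpand, H59inf.order_jqModC_Kbar] at h1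
    rw [← h1]; ring
  -- the orbit
  have hfix : (L.ρ ^ w) x = x := by
    rw [hw, ← Equiv.Perm.iterate_eq_pow]
    exact Function.iterate_minimalPeriod
  have hTx : ModularGroup.T ^ w • x = x := by
    rw [hρ, toPerm_pow_apply] at hfix
    exact hfix
  -- the three series
  set a : LaurentSeries ℂ := coeffMap iota (PhiInf N x P) with ha_def
  set b : LaurentSeries ℂ := coeffMap iota (PhiInf N x Q) with hb_def
  have ha : a ≠ 0 := by rw [ha_def, ← hφ]; exact L.φ_ne_zero x hP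
  have hb : b ≠ 0 := by rw [hb_def, ← hφ]; exact L.φ_ne_zero x hQ
  set Λ : LaurentSeries ℂ := coeffMap iota (PhiInf N x (P * Q ^ (p - 1))) with hΛ_def
  have hΛ : Λ = a * b ^ (p - 1) := by
    rw [hΛ_def, map_mul, map_mul, map_pow, map_pow]
  have hΛ0 : Λ ≠ 0 := by rw [hΛ]; exact mul_ne_zero ha (pow_ne_zero _ hb)
  have hexp : HasExp atImInfty (qN N) (transl N x (P * Q ^ (p - 1))) Λ := hasExp_PhiInf N x _
  have hlim := H62.hasExp_tendsto_div_zpow_order (tendsto_qN N) hexp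
  have hG : MDiff (translFun N x U) := mdiff_translFun N x hU
  have hGpow : ∀ τ, translFun N x U τ ^ p = transl N x (P * Q ^ (p - 1)) τ := by
    intro τ
    rw [H49.transl_mul, H49.transl_pow]
    exact congrFun (translFun_pow N x P Q hpow) τ
  have hlim' : Tendsto (fun τ : ℍ => translFun N x U τ ^ p / qN N τ ^ Λ.order) atImInfty
      (𝓝 Λ.leadingCoeff) := by
    refine hlim.congr fun τ => ?_
    rw [hGpow]
  have hdvd := cusp_root_dvd N p hp w (translFun N x U) hG
    (translFun_periodic N x w hTx U hpar) Λ.order Λ.leadingCoeff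
    (HahnSeries.leadingCoeff_ne_zero.mpr hΛ0) hlim'
  -- orders
  have hΛord : Λ.order = a.order + ((p : ℤ) - 1) * b.order := by
    rw [hΛ, lorder_mul ha (pow_ne_zero _ hb), lorder_pow]
    have h2 : ((p - 1 : ℕ) : ℤ) = (p : ℤ) - 1 := by
      have : 1 ≤ p := hp
      push_cast [this]
      ring
    rw [h2]
  have hford : (L.φ x (evF N P / evF N Q)).order = a.order - b.order := by
    rw [map_div₀, hφ, hφ, div_eq_mul_inv, lorder_mul ha (inv_ne_zero hb), lorder_inv]
    ring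
  have hbdvd : (L.s : ℤ) ∣ (w : ℤ) * (L.φ x (evF N Q)).order := L.dvd_order x (evF N Q) w hfix
  rw [hφ, hs] at hbdvd
  rw [hford, hwid, hs] at hrel
  obtain ⟨k₁, hk₁⟩ := hdvd
  obtain ⟨k₂, hk₂⟩ := hbdvd
  refine ⟨k₁ - k₂, ?_⟩
  have e : (N : ℤ) * v.ord (evF N P / evF N Q) = (N : ℤ) * (p * (k₁ - k₂)) := by
    have hk₂' : (w : ℤ) * b.order = N * k₂ := hk₂
    push_cast at hk₁
    rw [hΛord] at hk₁
    linear_combination -hrel + hk₁ - (p : ℤ) * hk₂'
  exact mul_left_cancel₀ hN0 e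

/-- **(ORD), exponent `m` prime to `6`.** -/
theorem ord_dvd_m [Fintype (XX N)] (p : ℕ) (hp : 0 < p) (hp6 : Nat.Coprime p 6)
    (P Q : MvPolynomial (N.divisors) Kbar) (hP : evF N P ≠ 0) (hQ : evF N Q ≠ 0)
    (U : ℍ → ℂ) (hU : MDiff U)
    (hpow : ∀ τ, U τ ^ p = Theta N P τ * Theta N Q τ ^ (p - 1))
    (hpar : ∀ γ ∈ Gamma0 N, ((γ : SL(2, ℤ)) : Matrix (Fin 2) (Fin 2) ℤ).trace ^ 2 = 4 →
      ∀ τ, U (γ • τ) = U τ)
    (v : Place Kbar (FF N)) : (p : ℤ) ∣ v.ord (evF N P / evF N Q) := by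
  classical
  have hR := frac_evF N
  obtain ⟨L0, -, -⟩ := exists_localData_fin N 0
  have hj0 : jgen N - algebraMap Kbar (FF N) 0 = jgen N := by simp
  have halg0 : Algebra.IsAlgebraic (IntermediateField.adjoin Kbar {jgen N - algebraMap Kbar (FF N) 0})
      (FF N) := L0.isAlgebraic hR
  have halg : Algebra.IsAlgebraic (IntermediateField.adjoin Kbar {jgen N}) (FF N) := hj0 ▸ halg0
  rcases exists_center (jgen N) v with h | ⟨c, hc⟩
  · apply ord_dvd_inf_m N p hp P Q hP hQ U hU hpow hpar v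
    rw [v.ord_inv]
    omega
  · exact ord_dvd_fin_m N p hp hp6 P Q hP hQ U hU hpow c v hc

end Fermat.Agent.S42.H47
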