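/-
Program A (S42 / S29 / S30 / S31), leaf (ORD) for an ARBITRARY exponent `m > 0` (helper47).

If `Θ(P) = G^m` with `G` holomorphic on the upper half plane and invariant under the parabolic
elements and the elements of finite order of `Γ₀(N)`, then `m ∣ v.ord (evF N P)` at EVERY place
of `FF N`.  (Characters coming from `parabolicHoms ℤ (Gamma0 N) ℤ` have this invariance, so this
is the form needed for the exponent `p ^ n` of the integral Abel--Jacobi statement, all primes.)

The proof at the finite centres follows helper5's landed `S29/H5/OrdFin.lean` (prime exponent),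
with the case distinction on the orbit length instead of on `p = s`.
-/
import Fermat.Agent.S42.H47.OrdM
import Fermat.Agent.S29.H5.Ord

set_option autoImplicit false

open UpperHalfPlane ModularCurve CongruenceSubgroup Filter AlgebraicCurve Topology
open scoped MatrixGroups Manifold

noncomputable section

namespace Fermat.Agent.S42.H47

open Fermat.Agent.S24

/-- **Finite-centre step, generic centre datum, arbitrary exponent.** -/
theorem ord_dvd_at_gen (N : ℕ) [NeZero N] (m : ℕ) (hm : 0 < m) (c : Kbar)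
    (τ₀ : ℍ) (γ : SL(2, ℤ)) (hγτ : γ • τ₀ = τ₀) (s : ℕ) (hs : s = 1 ∨ s.Prime)
    (hγs : ∀ x : XX N, γ ^ s • x = x)
    (hprim : IsPrimitiveRoot (denom (γ : GL (Fin 2) ℝ) τ₀ ^ 2) s)
    (hord : analyticOrderAt (fun z : ℂ => Jfun (ofComplex z) - iota c) (τ₀ : ℂ) = s)
    (P : MvPolynomial (N.divisors) Kbar) (hP : evF N P ≠ 0)
    (G : ℍ → ℂ) (hG : MDiff G) (hpow : ∀ τ, G τ ^ m = Theta N P τ)
    (hinv : ∀ g : SL(2, ℤ), g⁻¹ * γ * g ∈ Gamma0 N → ∀ τ, G ((g⁻¹ * γ * g) • τ) = G τ)
    (v : Place Kbar (FF N)) (hv : 0 < v.ord (jgen N - algebraMap Kbar (FF N) c)) :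
    (m : ℤ) ∣ v.ord (evF N P) := by
  classical
  let _ : Fintype (XX N) := Fintype.ofFinite _
  have hs0 : 0 < s := by
    rcases hs with rfl | hs
    · exact one_pos
    · exact hs.pos
  have hpowx : ∀ (x : XX N) (k : ℕ), γ ^ k • x = x → s ∣ k ∨ γ • x = x := by
    rcases hs with rfl | hs
    · exact fun x k _ => Or.inl (one_dvd k)
    · exact fun x k hk => H49.dvd_or_smul_eq_of_pow_smul γ hs hγs x k hk
  obtain ⟨L, hρ, hφ⟩ := H49.exists_localData_at N c τ₀ γ hγτ s hs0 hord hprim hpowx
  have hR := frac_evF N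
  obtain ⟨x, hx⟩ := L.exists_rel_of_place hR v hv
  -- the translate of `G`
  set g : SL(2, ℤ) := Quotient.out x with hg
  set Gx : ℍ → ℂ := fun τ => G (g⁻¹ • τ) with hGx
  have hGxd : MDiff Gx := H92.mdiff_comp_smul g⁻¹ hG
  have htr : transl N x P = Gx ^ m := by
    funext τ
    show Theta N P (g⁻¹ • τ) = G (g⁻¹ • τ) ^ m
    rw [hpow]
  set T : PowerSeries ℂ := taylorAt τ₀ Gx with hT
  have hTp : taylorAt τ₀ (transl N x P) = T ^ m := by
    rw [htr, taylorAt_pow τ₀ hGxd m]
  have hT0 : T ≠ 0 := by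
    intro h0
    have h1 : taylorAt τ₀ (transl N x P) = 0 := by
      rw [hTp, h0, zero_pow hm.ne']
    have h2 : transl N x P = 0 := (taylorAt_eq_zero_iff τ₀ (mdiff_transl N x P)).mp h1
    exact hP ((Theta_eq_zero_iff N P).mp ((transl_eq_zero_iff N x P).mp h2))
  set k : ℕ := T.order.toNat with hk
  have hTord : T.order = (k : ℕ∞) := by
    rw [hk, ENat.natCast_toNat]
    exact fun h => hT0 (PowerSeries.order_eq_top.mp h)
  -- the order of `φ x (evF P)`
  have hordP : (L.φ x (evF N P)).order = (m : ℤ) * k := by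
    rw [hφ, hTp, map_pow, lorder_pow, order_ofPowerSeries hT0]
  -- the value of `L.s`
  have hLs : (L.s : ℤ) = s := by
    have h1 := L.order_π x
    have hπ : jgen N - algebraMap Kbar (FF N) c
        = evF N (MvPolynomial.X (oneDiv N) - MvPolynomial.C c) := by
      rw [map_sub, evF_X_one, Fermat.Agent.S24.H47.evF_C]
    have htrπ : transl N x (MvPolynomial.X (oneDiv N) - MvPolynomial.C c)
        = fun τ => Jfun τ - iota c := by
      rw [H49.transl_sub, transl_X_one, transl_C]
      rfl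
    have hd : MDiff (fun τ : ℍ => Jfun τ - iota c) := by
      rw [← htrπ]
      exact mdiff_transl N x _
    have h2 : (taylorAt τ₀ (fun τ : ℍ => Jfun τ - iota c)).order = (s : ℕ∞) := by
      rw [order_taylorAt τ₀ hd]
      exact hord
    have h3 : taylorAt τ₀ (fun τ : ℍ => Jfun τ - iota c) ≠ 0 := by
      intro h0
      rw [h0, PowerSeries.order_zero] at h2
      exact ENat.top_ne_natCast s h2
    rw [congrArg (L.φ x) hπ, hφ, htrπ, order_ofPowerSeries h3, h2] at h1
    simpa using h1.symm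
  -- the ramification index
  have he := L.ord_π_eq_minimalPeriod hR v hv hx
  have hrel := hx (evF N P)
  rw [hordP, hLs] at hrel
  -- `hrel : m * k * v.ord π = s * v.ord (evF N P)`
  rcases hs with rfl | hsp
  · refine ⟨k * v.ord (jgen N - algebraMap Kbar (FF N) c), ?_⟩
    have : v.ord (evF N P) = (m : ℤ) * k * v.ord (jgen N - algebraMap Kbar (FF N) c) := by
      rw [hrel]; simp
    rw [this]; ring
  · have hsz : (s : ℤ) ≠ 0 := by exact_mod_cast hsp.ne_zero
    -- the minimal period divides `s`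
    have hper : Function.minimalPeriod L.ρ x ∣ s := by
      apply Function.IsPeriodicPt.minimalPeriod_dvd
      show (L.ρ)^[s] x = x
      rw [hρ, Equiv.Perm.iterate_eq_pow, toPerm_pow_apply]
      exact hγs x
    rcases (Nat.dvd_prime hsp).mp hper with h1 | h1
    · -- a fixed coset: use the invariance of `G`
      have hfix : γ • x = x := by
        have h2 : Function.IsPeriodicPt L.ρ 1 x := by
          rw [← h1]; exact Function.isPeriodicPt_minimalPeriod _ _
        have h3 : L.ρ x = x := h2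
        rw [hρ] at h3
        exact h3
      have hmem := Fermat.Agent.S29.H5.conj_mem_of_smul_eq N γ x hfix
      have hinvG : ∀ τ, Gx (γ • τ) = Gx τ := by
        intro τ
        have h4 := hinv g hmem (g⁻¹ • τ)
        show G (g⁻¹ • γ • τ) = G (g⁻¹ • τ)
        rw [← h4]
        congr 1
        rw [mul_smul, mul_smul, smul_inv_smul]
      have hn : analyticOrderAt (Gx ∘ ofComplex) (τ₀ : ℂ) = k := by
        rw [← order_taylorAt τ₀ hGxd]
        exact hTord
      obtain ⟨k', hk'⟩ := dvd_analyticOrderAt_of_fixed τ₀ hGxd γ hγτ hinvG s k hprim hn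
      rw [he, h1] at hrel
      refine ⟨k', ?_⟩
      apply mul_left_cancel₀ hsz
      rw [← hrel, hk']
      push_cast
      ring
    · rw [he, h1] at hrel
      refine ⟨k, ?_⟩
      apply mul_left_cancel₀ hsz
      rw [← hrel]
      ring

/-- **(ORD), finite centres, arbitrary exponent.** -/
theorem ord_dvd_fin_gen (N : ℕ) [NeZero N] (m : ℕ) (hm : 0 < m)
    (P : MvPolynomial (N.divisors) Kbar) (hP : evF N P ≠ 0)
    (G : ℍ → ℂ) (hG : MDiff G) (hpow : ∀ τ, G τ ^ m = Theta N P τ)
    (hell : ∀ γ ∈ Gamma0 N, IsOfFinOrder γ → ∀ τ, G (γ • τ) = G τ)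
    (c : Kbar) (v : Place Kbar (FF N))
    (hv : 0 < v.ord (jgen N - algebraMap Kbar (FF N) c)) :
    (m : ℤ) ∣ v.ord (evF N P) := by
  by_cases h0 : c = 0
  · -- the elliptic point of order 3
    refine ord_dvd_at_gen N m hm c ellRho (ModularGroup.S * ModularGroup.T) H64.ST_smul_rho 3
      (Or.inr Nat.prime_three) (Fermat.Agent.S20.H46.ST_cube_smul N) isPrimitiveRoot_denom_ST ?_
      P hP G hG hpow ?_ v hv
    · rw [h0, map_zero]
      simpa using analyticOrderAt_Jfun_rho
    · intro g hg τ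
      exact hell _ hg
        (Fermat.Agent.S29.H5.isOfFinOrder_conj' g _ Fermat.Agent.S29.H5.isOfFinOrder_ST) τ
  · by_cases h1 : c = 1728
    · -- the elliptic point of order 2
      refine ord_dvd_at_gen N m hm c UpperHalfPlane.I ModularGroup.S H64.S_smul_I 2
        (Or.inr Nat.prime_two) (Fermat.Agent.S20.H46.S_sq_smul N) isPrimitiveRoot_denom_S ?_
        P hP G hG hpow ?_ v hv
      · rw [h1, map_ofNat]
        exact_mod_cast analyticOrderAt_Jfun_I
      · intro g hg τ
        exact hell _ hg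
          (Fermat.Agent.S29.H5.isOfFinOrder_conj' g _ Fermat.Agent.S29.H5.isOfFinOrder_S) τ
    · -- a generic point
      have hτ : Jfun (centerPt c) = iota c := Jfun_centerPt c
      have hJ0 : Jfun (centerPt c) ≠ 0 := by
        rw [hτ]
        exact (map_ne_zero iota).mpr h0
      have hJ1 : Jfun (centerPt c) ≠ 1728 := by
        rw [hτ]
        intro h
        apply h1
        apply iota.injective
        rw [h, map_ofNat]
      refine ord_dvd_at_gen N m hm c (centerPt c) 1 (one_smul _ _) 1 (Or.inl rfl)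
        (fun x => by simp) ?_ ?_ P hP G hG hpow ?_ v hv
      · rw [IsPrimitiveRoot.one_right_iff]
        simp [denom]
      · rw [← hτ]
        exact_mod_cast analyticOrderAt_Jfun_generic (centerPt c) hJ0 hJ1
      · intro g hg τ
        have e : g⁻¹ * (1 : SL(2, ℤ)) * g = 1 := by group
        rw [e, one_smul]

/-- **(ORD), core form, arbitrary exponent.**  If `Theta N P = G ^ m` with `G` holomorphic and
invariant under the parabolic elements and the elements of finite order of `Γ₀(N)`, then `m`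
divides the order of `evF N P` at every place. -/
theorem ord_dvd_gen_of_pow (N : ℕ) [NeZero N] (m : ℕ) (hm : 0 < m)
    (P : MvPolynomial (N.divisors) Kbar) (hP : evF N P ≠ 0)
    (G : ℍ → ℂ) (hG : MDiff G) (hpow : ∀ τ, G τ ^ m = Theta N P τ)
    (hpar : ∀ γ ∈ Gamma0 N, ((γ : SL(2, ℤ)) : Matrix (Fin 2) (Fin 2) ℤ).trace ^ 2 = 4 →
      ∀ τ, G (γ • τ) = G τ)
    (hell : ∀ γ ∈ Gamma0 N, IsOfFinOrder γ → ∀ τ, G (γ • τ) = G τ)
    (v : Place Kbar (FF N)) : (m : ℤ) ∣ v.ord (evF N P) := by
  have := Fermat.Agent.S29.H5.isAlgebraic_adjoin_jgen N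
  rcases exists_center (jgen N) v with h | ⟨c, hc⟩
  · refine Fermat.Agent.S29.H5.ord_dvd_inf N m hm P hP G hG hpow hpar v ?_
    rw [v.ord_inv]
    omega
  · exact ord_dvd_fin_gen N m hm P hP G hG hpow hell c v hc

/-- **(ORD), arbitrary exponent.**  If `U` is holomorphic with
`U ^ m = Theta N P * Theta N Q ^ (m - 1)`, invariant under the parabolic elements and the
elements of finite order of `Γ₀(N)`, then `m` divides the order of `evF N P / evF N Q` at
every place. -/
theorem ord_dvd_gen (N : ℕ) [NeZero N] (m : ℕ) (hm : 0 < m)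
    (P Q : MvPolynomial (N.divisors) Kbar) (hP : evF N P ≠ 0) (hQ : evF N Q ≠ 0)
    (U : ℍ → ℂ) (hU : MDiff U)
    (hpow : ∀ τ, U τ ^ m = Theta N P τ * Theta N Q τ ^ (m - 1))
    (hpar : ∀ γ ∈ Gamma0 N, ((γ : SL(2, ℤ)) : Matrix (Fin 2) (Fin 2) ℤ).trace ^ 2 = 4 →
      ∀ τ, U (γ • τ) = U τ)
    (hell : ∀ γ ∈ Gamma0 N, IsOfFinOrder γ → ∀ τ, U (γ • τ) = U τ)
    (v : Place Kbar (FF N)) : (m : ℤ) ∣ v.ord (evF N P / evF N Q) := by
  have hQp : evF N Q ^ (m - 1) ≠ 0 := pow_ne_zero _ hQ
  have hPQ : evF N (P * Q ^ (m - 1)) ≠ 0 := by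
    rw [map_mul, map_pow]
    exact mul_ne_zero hP hQp
  have hpow' : ∀ τ, U τ ^ m = Theta N (P * Q ^ (m - 1)) τ := by
    intro τ
    rw [hpow, map_mul, map_pow]
    rfl
  have h1 := ord_dvd_gen_of_pow N m hm (P * Q ^ (m - 1)) hPQ U hU hpow' hpar hell v
  rw [map_mul, map_pow, v.ord_mul hP hQp, ord_pow] at h1
  rw [ord_div v hP hQ]
  have hm1 : ((m - 1 : ℕ) : ℤ) = (m : ℤ) - 1 := by
    omega
  rw [hm1] at h1
  obtain ⟨k, hk⟩ := h1
  exact ⟨k - v.ord (evF N Q), by linear_combination hk⟩

end Fermat.Agent.S42.H47
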