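/-
Program A (S42), leaf 15 of helper96's AJ skeleton: `LeafORD N p`, VERBATIM (helper47).
Any modulus `p > 0`.
-/
import Fermat.Agent.S42.H47.OrdEll
import Fermat.Agent.S42.H96.Skeleton

set_option autoImplicit false

open UpperHalfPlane CongruenceSubgroup ModularCurve ModularCurve.Period AlgebraicCurve
open Fermat.Agent.S24
open scoped MatrixGroups Manifold

noncomputable section

namespace Fermat.Agent.S42.H47

open Fermat.Agent.S42.H96

/-- The character of a hom vanishing at `γ` is `1` there. -/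
theorem chiOf_eq_one_of_apply_eq_zero {N p : ℕ} (ψ : Additive (Gamma0 N) →+ ZMod p)
    (γ : Gamma0 N) (h : ψ (Additive.ofMul γ) = 0) : chiOf p ψ γ = 1 := by
  unfold chiOf
  rw [h]
  rcases p with _ | p
  · simp [ZMod.val]
  · simp

/-- **Leaf (ORD) of the AJ skeleton**, for every modulus `p > 0`. -/
theorem leafORD (N p : ℕ) [NeZero N] (hp : 0 < p) : LeafORD N p := by
  intro ψ hψ C hC hroot v
  obtain ⟨hpar, htor⟩ := mem_Hp.mp hψ
  obtain ⟨G, hG, hpow, hchar⟩ := hroot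
  refine ord_dvd_gen_of_pow N p hp C hC G hG hpow ?_ ?_ v
  · intro γ hγ htr τ
    have h0 : ψ (Additive.ofMul (⟨γ, hγ⟩ : Gamma0 N)) = 0 := hpar ⟨γ, hγ⟩ htr
    have h1 := hchar ⟨γ, hγ⟩ τ
    rw [chiOf_eq_one_of_apply_eq_zero ψ _ h0, one_mul] at h1
    exact h1
  · intro γ hγ hfin τ
    have hfin' : IsOfFinOrder (⟨γ, hγ⟩ : Gamma0 N) := by
      rw [isOfFinOrder_iff_pow_eq_one] at hfin ⊢
      obtain ⟨n, hn, hγn⟩ := hfin
      exact ⟨n, hn, Subtype.ext (by simpa using hγn)⟩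
    have h0 : ψ (Additive.ofMul (⟨γ, hγ⟩ : Gamma0 N)) = 0 := htor ⟨γ, hγ⟩ hfin'
    have h1 := hchar ⟨γ, hγ⟩ τ
    rw [chiOf_eq_one_of_apply_eq_zero ψ _ h0, one_mul] at h1
    exact h1

end Fermat.Agent.S42.H47
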